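import Fermat.Agent.QuadraticDivisor.Sums

/-!
# The divisors of `n ^ 2 + 1`

Exactly half of the divisors of `n ^ 2 + 1` are at most `n`, and a level `d ≤ N` divides `n ^ 2 + 1`
for `ρ d (N - d) / d + O (ρ d)` of the `n` in `[d, N]`.
-/

set_option autoImplicit false

noncomputable section

open Finset
open scoped Real

namespace FA.QuadDivisor

/-- **Half of the divisors are small.** -/
theorem card_divisors_sq_add_one {n : ℕ} (hn : 0 < n) :
    (n ^ 2 + 1).divisors.card = 2 * ((Icc 1 n).filter fun d => d ∣ n ^ 2 + 1).card := by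
  have hN : n ^ 2 + 1 ≠ 0 := Nat.succ_ne_zero _
  have hsmall : (n ^ 2 + 1).divisors.filter (fun d => d ≤ n) =
      (Icc 1 n).filter fun d => d ∣ n ^ 2 + 1 := by
    ext d
    simp only [mem_filter, Nat.mem_divisors, mem_Icc]
    exact ⟨fun h => ⟨⟨Nat.pos_of_dvd_of_pos h.1.1 (Nat.succ_pos _), h.2⟩, h.1.1⟩,
      fun h => ⟨⟨h.2, hN⟩, h.1.2⟩⟩
  have hswap : ((n ^ 2 + 1).divisors.filter fun d => ¬ d ≤ n).card =
      ((n ^ 2 + 1).divisors.filter fun d => d ≤ n).card := by
    refine card_nbij' (fun d => (n ^ 2 + 1) / d) (fun d => (n ^ 2 + 1) / d) ?_ ?_ ?_ ?_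
    · intro d hd
      simp only [mem_coe, mem_filter, Nat.mem_divisors, not_le] at hd ⊢
      refine ⟨⟨Nat.div_dvd_of_dvd hd.1.1, hN⟩, ?_⟩
      obtain ⟨c, hc⟩ := hd.1.1
      rw [hc, Nat.mul_div_cancel_left _ (by omega)]
      by_contra h
      have : (n + 1) * (n + 1) ≤ d * c := Nat.mul_le_mul (by omega) (by omega)
      nlinarith
    · intro d hd
      simp only [mem_coe, mem_filter, Nat.mem_divisors, not_le] at hd ⊢
      refine ⟨⟨Nat.div_dvd_of_dvd hd.1.1, hN⟩, ?_⟩
      obtain ⟨c, hc⟩ := hd.1.1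
      have hd0 : 0 < d := Nat.pos_of_dvd_of_pos hd.1.1 (Nat.succ_pos _)
      rw [hc, Nat.mul_div_cancel_left _ hd0]
      by_contra h
      have : d * c ≤ n * n := Nat.mul_le_mul hd.2 (by omega)
      nlinarith
    all_goals
      intro d hd
      simp only [mem_coe, mem_filter, Nat.mem_divisors] at hd
      exact Nat.div_div_self hd.1.1 hN
  have h := Finset.card_filter_add_card_filter_not (s := (n ^ 2 + 1).divisors) (fun d => d ≤ n)
  rw [hswap, hsmall] at h
  omega

theorem sum_divisors_eq (N : ℕ) :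
    ∑ n ∈ Icc 1 N, (n ^ 2 + 1).divisors.card =
      2 * ∑ d ∈ Icc 1 N, ((Ico d (N + 1)).filter fun n => d ∣ n ^ 2 + 1).card := by
  rw [sum_congr rfl fun n hn => card_divisors_sq_add_one (mem_Icc.1 hn).1, ← mul_sum]
  simp only [card_eq_sum_ones, sum_filter]
  rw [sum_comm' (t' := Icc 1 N) (s' := fun d => Ico d (N + 1)) fun x y => by
    simp only [mem_Icc, mem_Ico]
    omega]

/-- **A periodic predicate in an interval.** -/
theorem abs_card_filter_dvd_sub_le {d : ℕ} (hd : 0 < d) (a L : ℕ) :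
    |((((Ico a (a + L)).filter fun n => d ∣ n ^ 2 + 1).card : ℕ) : ℝ) -
      rootCount d * (L : ℝ) / d| ≤ rootCount d := by
  have hblock : ∀ a : ℕ, ((Ico a (a + d)).filter fun n => d ∣ n ^ 2 + 1).card = rootCount d :=
    fun a => by
      rw [Nat.filter_Ico_card_eq_of_periodic a d _ (dvd_sq_add_one_periodic d),
        Nat.count_eq_card_filter_range, rootCount_apply]
  have hmul : ∀ k a : ℕ,
      ((Ico a (a + k * d)).filter fun n => d ∣ n ^ 2 + 1).card = k * rootCount d := fun k => by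
    induction k with
    | zero => simp
    | succ k ih =>
      intro a
      rw [show a + (k + 1) * d = a + k * d + d by ring,
        ← Ico_union_Ico_eq_Ico (Nat.le_add_right a (k * d)) (Nat.le_add_right _ d), filter_union,
        card_union_of_disjoint (disjoint_filter_filter (Ico_disjoint_Ico_consecutive a _ _)), ih,
        hblock]
      ring
  obtain ⟨q, hq⟩ : ∃ q, q = L / d := ⟨_, rfl⟩
  have h1 : q * d ≤ L := hq ▸ Nat.div_mul_le_self L d
  have h2 : L ≤ (q + 1) * d := by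
    have := Nat.lt_div_mul_add (a := L) hd
    rw [← hq] at this
    rw [add_mul, one_mul]
    omega
  have hlo : q * rootCount d ≤ ((Ico a (a + L)).filter fun n => d ∣ n ^ 2 + 1).card :=
    hmul q a ▸ card_le_card (filter_subset_filter _ (Ico_subset_Ico_right (by omega)))
  have hhi : ((Ico a (a + L)).filter fun n => d ∣ n ^ 2 + 1).card ≤ (q + 1) * rootCount d :=
    hmul (q + 1) a ▸ card_le_card (filter_subset_filter _ (Ico_subset_Ico_right (by omega)))
  have hd0 : (0 : ℝ) < d := Nat.cast_pos.2 hd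
  have hlo' : (q : ℝ) * rootCount d ≤
      (((Ico a (a + L)).filter fun n => d ∣ n ^ 2 + 1).card : ℝ) := by exact_mod_cast hlo
  have hhi' : (((Ico a (a + L)).filter fun n => d ∣ n ^ 2 + 1).card : ℝ) ≤
      ((q : ℝ) + 1) * rootCount d := by exact_mod_cast hhi
  have h1' : (q : ℝ) * d ≤ L := by exact_mod_cast h1
  have h2' : (L : ℝ) ≤ ((q : ℝ) + 1) * d := by exact_mod_cast h2
  have e1 : (q : ℝ) * rootCount d ≤ rootCount d * (L : ℝ) / d := by
    rw [le_div_iff₀ hd0]
    nlinarith [Nat.cast_nonneg (α := ℝ) (rootCount d)]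
  have e2 : rootCount d * (L : ℝ) / d ≤ ((q : ℝ) + 1) * rootCount d := by
    rw [div_le_iff₀ hd0]
    nlinarith [Nat.cast_nonneg (α := ℝ) (rootCount d)]
  rw [abs_le]
  constructor <;> linarith

/-- **`∑_{n ≤ N} d (n ^ 2 + 1) = 3 / π N log N + O (N)`.** -/
theorem exists_sum_divisors_sq_add_one : ∃ C : ℝ, ∀ N : ℕ, 1 ≤ N →
    |(∑ n ∈ Icc 1 N, ((n ^ 2 + 1).divisors.card : ℝ)) - 3 / π * N * Real.log N| ≤ C * N := by
  obtain ⟨C, hC⟩ := exists_sum_rootCount_div
  refine ⟨2 * C + 8, fun N hN => ?_⟩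
  obtain ⟨A, hA⟩ : ∃ A, A = ∑ n ∈ Ioc 0 N, (rootCount n : ℝ) / n := ⟨_, rfl⟩
  obtain ⟨R, hR⟩ : ∃ R, R = ∑ n ∈ Ioc 0 N, (rootCount n : ℝ) := ⟨_, rfl⟩
  have hR2 : R ≤ 2 * N := hR ▸ sum_rootCount_le N
  have hI : Icc 1 N = Ioc 0 N := by
    ext
    simp only [mem_Icc, mem_Ioc]
    omega
  have hX : |(∑ d ∈ Ioc 0 N, (((Ico d (N + 1)).filter fun n => d ∣ n ^ 2 + 1).card : ℝ)) -
      N * A| ≤ 2 * R := by
    rw [hA, mul_sum, ← sum_sub_distrib, hR, mul_sum]
    refine (abs_sum_le_sum_abs _ _).trans (sum_le_sum fun d hd => ?_)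
    rw [mem_Ioc] at hd
    have h := abs_card_filter_dvd_sub_le hd.1 d (N + 1 - d)
    rw [Nat.add_sub_cancel' (by omega : d ≤ N + 1), Nat.cast_sub (by omega : d ≤ N + 1)] at h
    push_cast at h
    have hd0 : (0 : ℝ) < d := Nat.cast_pos.2 hd.1
    have e : (rootCount d : ℝ) * ((N : ℝ) + 1 - d) / d - N * ((rootCount d : ℝ) / d) =
        (rootCount d : ℝ) / d - rootCount d := by
      field_simp
      ring
    have h3 : (rootCount d : ℝ) / d ≤ rootCount d :=
      div_le_self (Nat.cast_nonneg _) (Nat.one_le_cast.2 hd.1)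
    have h4 : 0 ≤ (rootCount d : ℝ) / d := by positivity
    rw [abs_le] at h ⊢
    constructor <;> linarith
  have hmain := abs_le.1 (hC N hN)
  rw [← hA] at hmain
  rw [← Nat.cast_sum, sum_divisors_eq, hI]
  push_cast
  have hN0 : (0 : ℝ) ≤ N := Nat.cast_nonneg N
  have e3 : 3 / π * N * Real.log N = 2 * (N * (3 / (2 * π) * Real.log N)) := by
    field_simp
  rw [e3]
  rw [abs_le] at hX ⊢
  constructor <;> nlinarith

end FA.QuadDivisor

end
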