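import Mathlib.Analysis.SpecialFunctions.Log.Basic
import Mathlib.NumberTheory.ArithmeticFunction.Moebius
import Mathlib.NumberTheory.ArithmeticFunction.Misc
import Mathlib.NumberTheory.LegendreSymbol.Basic
import Mathlib.NumberTheory.LegendreSymbol.ZModChar
import Mathlib.Data.Nat.Periodic
import Mathlib.Tactic

/-!
# The roots of `r ^ 2 + 1`

`ρ d`, the number of residues `r` modulo `d` with `d ∣ r ^ 2 + 1`, is multiplicative and equals
`∑_{k ^ 2 m = d} μ k ∑_{e ∣ m} χ₄ e`.
-/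

set_option autoImplicit false
set_option linter.style.haveILetI false

noncomputable section

open Finset
open scoped ArithmeticFunction.zeta ArithmeticFunction.Moebius

namespace FA.QuadDivisor

/-- The number of roots of `r ^ 2 + 1` modulo `d`. -/
def rootCount : ArithmeticFunction ℕ :=
  ⟨fun d => ((range d).filter fun r => d ∣ r ^ 2 + 1).card, rfl⟩

theorem rootCount_apply (d : ℕ) :
    rootCount d = ((range d).filter fun r => d ∣ r ^ 2 + 1).card := rfl

theorem dvd_sq_add_one_periodic (d : ℕ) : Function.Periodic (fun n => d ∣ n ^ 2 + 1) d :=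
    fun n => by
  simp only [eq_iff_iff]
  rw [show (n + d) ^ 2 + 1 = n ^ 2 + 1 + d * (2 * n + d) by ring]
  exact Nat.dvd_add_left (dvd_mul_right d _)

theorem dvd_mod_iff (d r : ℕ) : d ∣ (r % d) ^ 2 + 1 ↔ d ∣ r ^ 2 + 1 :=
  iff_of_eq ((dvd_sq_add_one_periodic d).map_mod_nat r)

theorem rootCount_one : rootCount 1 = 1 := by
  rw [rootCount_apply]
  decide

theorem rootCount_mul {m n : ℕ} (h : m.Coprime n) :
    rootCount (m * n) = rootCount m * rootCount n := by
  rcases Nat.eq_zero_or_pos m with rfl | hm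
  · simp
  rcases Nat.eq_zero_or_pos n with rfl | hn
  · simp
  rw [rootCount_apply, rootCount_apply, rootCount_apply, ← card_product]
  refine card_nbij' (fun r => (r % m, r % n))
    (fun x => (Nat.chineseRemainder h x.1 x.2 : ℕ)) ?_ ?_ ?_ ?_
  · intro r hr
    simp only [mem_coe, mem_product, mem_filter, mem_range] at hr ⊢
    exact ⟨⟨Nat.mod_lt r hm, (dvd_mod_iff m r).2 ((dvd_mul_right m n).trans hr.2)⟩,
      Nat.mod_lt r hn, (dvd_mod_iff n r).2 ((dvd_mul_left n m).trans hr.2)⟩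
  · intro x hx
    simp only [mem_coe, mem_product, mem_filter, mem_range] at hx ⊢
    obtain ⟨h1, h2⟩ := (Nat.chineseRemainder h x.1 x.2).2
    refine ⟨Nat.chineseRemainder_lt_mul h x.1 x.2 hm.ne' hn.ne', h.mul_dvd_of_dvd_of_dvd ?_ ?_⟩
    · rw [← dvd_mod_iff, h1, Nat.mod_eq_of_lt hx.1.1]
      exact hx.1.2
    · rw [← dvd_mod_iff, h2, Nat.mod_eq_of_lt hx.2.1]
      exact hx.2.2
  · intro r hr
    simp only [mem_coe, mem_filter, mem_range] at hr
    have e := (Nat.chineseRemainder_modEq_unique h (a := r % m) (b := r % n) (z := r)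
      (Nat.mod_modEq r m).symm (Nat.mod_modEq r n).symm).symm
    exact Nat.ModEq.eq_of_lt_of_lt e
      (Nat.chineseRemainder_lt_mul h _ _ hm.ne' hn.ne') hr.1
  · intro x hx
    simp only [mem_coe, mem_product, mem_filter, mem_range] at hx
    obtain ⟨h1, h2⟩ := (Nat.chineseRemainder h x.1 x.2).2
    exact Prod.ext (Eq.trans h1 (Nat.mod_eq_of_lt hx.1.1)) (Eq.trans h2 (Nat.mod_eq_of_lt hx.2.1))

theorem isMultiplicative_rootCount : rootCount.IsMultiplicative :=
  ⟨rootCount_one, fun h => rootCount_mul h⟩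

theorem rootCount_two : rootCount 2 = 1 := by
  rw [rootCount_apply]
  decide

theorem rootCount_eq_zero {p a : ℕ} (hp : p.Prime) (hp3 : p % 4 = 3) (ha : 1 ≤ a) :
    rootCount (p ^ a) = 0 := by
  rw [rootCount_apply, card_eq_zero, filter_eq_empty_iff]
  intro r _ hd
  haveI := Fact.mk hp
  refine absurd hp3 (ZMod.exists_sq_eq_neg_one_iff.1 ⟨(r : ZMod p), ?_⟩)
  rw [← sq, eq_comm, eq_neg_iff_add_eq_zero]
  exact_mod_cast (ZMod.natCast_eq_zero_iff (r ^ 2 + 1) p).2
    ((dvd_pow_self p (by omega)).trans hd)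

theorem rootCount_two_pow {a : ℕ} (ha : 2 ≤ a) : rootCount (2 ^ a) = 0 := by
  rw [rootCount_apply, card_eq_zero, filter_eq_empty_iff]
  intro r _ hd
  have h4 : 4 ∣ r ^ 2 + 1 := (pow_dvd_pow 2 ha).trans hd
  have h := (dvd_mod_iff 4 r).2 h4
  have : r % 4 < 4 := Nat.mod_lt _ (by norm_num)
  interval_cases h' : r % 4 <;> omega

/-- Hensel: `-1` is a square modulo every power of `p ≡ 1 mod 4`. -/
theorem exists_root {p : ℕ} (hp : p.Prime) (hp1 : p % 4 = 1) :
    ∀ a : ℕ, 1 ≤ a → ∃ r : ℤ, (p : ℤ) ^ a ∣ r ^ 2 + 1 := by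
  haveI := Fact.mk hp
  intro a ha
  induction a, ha using Nat.le_induction with
  | base =>
    obtain ⟨x, hx⟩ := (ZMod.exists_sq_eq_neg_one_iff (p := p)).2 (by omega)
    refine ⟨x.val, ?_⟩
    rw [pow_one, ← ZMod.intCast_zmod_eq_zero_iff_dvd]
    push_cast
    rw [ZMod.natCast_zmod_val, sq, ← hx]
    ring
  | succ a ha ih =>
    obtain ⟨r, c, hc⟩ := ih
    have h2r : (2 : ZMod p) * (r : ZMod p) ≠ 0 := fun h0 => by
      have hz : ((r : ZMod p)) ^ 2 + 1 = 0 := by
        have : ((r ^ 2 + 1 : ℤ) : ZMod p) = 0 := by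
          rw [hc]
          push_cast
          rw [ZMod.natCast_self, zero_pow (by omega), zero_mul]
        exact_mod_cast this
      rcases mul_eq_zero.1 h0 with h | h
      · have : ((2 : ℕ) : ZMod p) = 0 := by exact_mod_cast h
        have := Nat.le_of_dvd two_pos ((ZMod.natCast_eq_zero_iff 2 p).1 this)
        have := hp.two_le
        omega
      · rw [h, zero_pow two_ne_zero, zero_add] at hz
        exact one_ne_zero hz
    obtain ⟨t, ht⟩ : ∃ t : ℤ, (p : ℤ) ∣ c + 2 * r * t := by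
      refine ⟨((-(c : ZMod p) / (2 * r)).val : ℤ), ?_⟩
      rw [← ZMod.intCast_zmod_eq_zero_iff_dvd]
      push_cast
      rw [ZMod.natCast_zmod_val, mul_div_cancel₀ _ h2r, add_neg_cancel]
    refine ⟨r + t * (p : ℤ) ^ a, ?_⟩
    rw [show (r + t * (p : ℤ) ^ a) ^ 2 + 1 =
      (p : ℤ) ^ a * (c + 2 * r * t) + t ^ 2 * ((p : ℤ) ^ a * (p : ℤ) ^ a) by
        linear_combination hc]
    refine dvd_add (by rw [pow_succ]; exact mul_dvd_mul_left _ ht) (Dvd.dvd.mul_left ?_ _)
    rw [pow_succ]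
    exact mul_dvd_mul_left _ (dvd_pow_self _ (by omega))

theorem rootCount_eq_two {p a : ℕ} (hp : p.Prime) (hp1 : p % 4 = 1) (ha : 1 ≤ a) :
    rootCount (p ^ a) = 2 := by
  obtain ⟨r, hr⟩ := exists_root hp hp1 a ha
  obtain ⟨m, hm⟩ : ∃ m, m = p ^ a := ⟨_, rfl⟩
  have hm0 : 0 < m := hm ▸ pow_pos hp.pos a
  haveI : NeZero m := ⟨hm0.ne'⟩
  have hpZ : Prime (p : ℤ) := Nat.prime_iff_prime_int.1 hp
  have hmr : (m : ℤ) = (p : ℤ) ^ a := by rw [hm, Nat.cast_pow]
  have hr0 : ¬ (p : ℤ) ∣ 2 * r := fun h => by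
    rcases hpZ.dvd_or_dvd h with h | h
    · have := Nat.le_of_dvd two_pos
        (Int.natCast_dvd_natCast.1 (show (p : ℤ) ∣ ((2 : ℕ) : ℤ) from h))
      have := hp.two_le
      omega
    · exact hpZ.not_dvd_one ((dvd_add_right (dvd_pow h two_ne_zero)).1
        ((dvd_pow_self (p : ℤ) (by omega)).trans hr))
  rw [← hm, rootCount_apply, card_eq_two]
  refine ⟨(r : ZMod m).val, (-(r : ZMod m)).val, fun h => hr0 ?_, Finset.ext fun x => ?_⟩
  · have h' := ZMod.val_injective m h
    rw [eq_neg_iff_add_eq_zero, ← Int.cast_add, ZMod.intCast_zmod_eq_zero_iff_dvd, hmr, ← two_mul]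
      at h'
    exact (dvd_pow_self _ (by omega)).trans h'
  · rw [mem_filter, mem_range, mem_insert, mem_singleton]
    have hval : ∀ s : ℤ, (m : ℤ) ∣ s ^ 2 + 1 → m ∣ (s : ZMod m).val ^ 2 + 1 := fun s hs => by
      rw [← ZMod.natCast_eq_zero_iff]
      push_cast
      rw [ZMod.natCast_zmod_val]
      exact_mod_cast (ZMod.intCast_zmod_eq_zero_iff_dvd (s ^ 2 + 1) m).2 hs
    constructor
    · rintro ⟨hx, hd⟩
      have hprod : (p : ℤ) ^ a ∣ ((x : ℤ) - r) * ((x : ℤ) + r) := by
        rw [show ((x : ℤ) - r) * ((x : ℤ) + r) = ((x : ℤ) ^ 2 + 1) - (r ^ 2 + 1) by ring, ← hmr]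
        exact dvd_sub (by exact_mod_cast hd) (hmr ▸ hr)
      have key : ∀ s : ℤ, (p : ℤ) ^ a ∣ (x : ℤ) - s → x = (s : ZMod m).val := fun s hs => by
        have : ((x : ℤ) : ZMod m) = (s : ZMod m) := by
          rw [← sub_eq_zero, ← Int.cast_sub, ZMod.intCast_zmod_eq_zero_iff_dvd, hmr]
          exact hs
        rw [← this, Int.cast_natCast, ZMod.val_natCast, Nat.mod_eq_of_lt hx]
      by_cases h : (p : ℤ) ∣ (x : ℤ) - r
      · refine Or.inl (key r ?_)
        refine (hpZ.pow_dvd_of_dvd_mul_right a (fun h' => hr0 ?_) hprod)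
        have := dvd_sub h' h
        rwa [show (x : ℤ) + r - ((x : ℤ) - r) = 2 * r by ring] at this
      · refine Or.inr ?_
        rw [← Int.cast_neg]
        refine key (-r) ?_
        rw [sub_neg_eq_add]
        exact hpZ.pow_dvd_of_dvd_mul_left a h hprod
    · rintro (rfl | rfl)
      · exact ⟨ZMod.val_lt _, hval r (hmr ▸ hr)⟩
      · rw [← Int.cast_neg]
        exact ⟨ZMod.val_lt _, hval (-r) (by rw [neg_sq]; exact hmr ▸ hr)⟩

/-! ### The identity -/

/-- `μ k` at `k ^ 2`, zero off the squares. -/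
def sqMoebius : ArithmeticFunction ℤ :=
  ⟨fun n => if IsSquare n then μ (Nat.sqrt n) else 0, by simp⟩

theorem sqMoebius_apply (n : ℕ) :
    sqMoebius n = if IsSquare n then μ (Nat.sqrt n) else 0 := rfl

theorem sqMoebius_sq (k : ℕ) : sqMoebius (k * k) = μ k := by
  rw [sqMoebius_apply, if_pos ⟨k, rfl⟩, Nat.sqrt_eq]

theorem sqMoebius_eq_zero {n : ℕ} (h : ¬ IsSquare n) : sqMoebius n = 0 := if_neg h

theorem isMultiplicative_sqMoebius : sqMoebius.IsMultiplicative := by
  refine ⟨by simpa using sqMoebius_sq 1, fun {m n} h => ?_⟩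
  by_cases hmn : IsSquare (m * n)
  · obtain ⟨c, hc⟩ := hmn
    have hu : IsUnit (gcd m n) := Nat.isUnit_iff.2 h
    obtain ⟨a, rfl⟩ := exists_eq_pow_of_mul_eq_pow hu (show m * n = c ^ 2 by rw [hc, sq])
    obtain ⟨b, rfl⟩ := exists_eq_pow_of_mul_eq_pow (gcd_comm' (a ^ 2) n |>.isUnit_iff.1 hu)
      (show n * a ^ 2 = c ^ 2 by rw [mul_comm, hc, sq])
    have hab : a.Coprime b := by
      have h' : (a ^ 2).Coprime (b ^ 2) := h
      rwa [Nat.coprime_pow_left_iff two_pos, Nat.coprime_pow_right_iff two_pos] at h'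
    rw [sq, sq, mul_mul_mul_comm, sqMoebius_sq, sqMoebius_sq, sqMoebius_sq,
      ArithmeticFunction.isMultiplicative_moebius.map_mul_of_coprime hab]
  · rw [sqMoebius_eq_zero hmn]
    by_cases hm : IsSquare m
    · rw [sqMoebius_eq_zero fun hn => hmn (hm.mul hn), mul_zero]
    · rw [sqMoebius_eq_zero hm, zero_mul]

theorem sqMoebius_prime_pow {p : ℕ} (hp : p.Prime) (i : ℕ) :
    sqMoebius (p ^ i) = if i = 0 then 1 else if i = 2 then -1 else 0 := by
  rcases Nat.even_or_odd i with ⟨j, rfl⟩ | hodd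
  · rw [pow_add, sqMoebius_sq]
    rcases Nat.eq_zero_or_pos j with rfl | hj
    · simp
    rw [ArithmeticFunction.moebius_apply_prime_pow hp hj.ne', if_neg (by omega : ¬ j + j = 0)]
    by_cases hj1 : j = 1
    · rw [if_pos hj1, if_pos (by omega)]
    · rw [if_neg hj1, if_neg (by omega)]
  · have hns : ¬ IsSquare (p ^ i) := fun ⟨c, hc⟩ => by
      obtain ⟨k, -, rfl⟩ := (Nat.dvd_prime_pow hp).1 (hc ▸ dvd_mul_right c c)
      rw [← pow_add] at hc
      have := Nat.pow_right_injective hp.two_le hc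
      obtain ⟨l, rfl⟩ := hodd
      omega
    rw [sqMoebius_eq_zero hns]
    obtain ⟨l, rfl⟩ := hodd
    rw [if_neg (by omega), if_neg (by omega)]

/-- `χ₄` as an arithmetic function. -/
def chiFour : ArithmeticFunction ℤ := ⟨fun n => ZMod.χ₄ (n : ℕ), by simp⟩

theorem chiFour_apply (n : ℕ) : chiFour n = ZMod.χ₄ (n : ℕ) := rfl

theorem chiFour_mul (m n : ℕ) : chiFour (m * n) = chiFour m * chiFour n := by
  rw [chiFour_apply, Nat.cast_mul, map_mul]
  rfl

theorem isMultiplicative_chiFour : chiFour.IsMultiplicative :=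
  ⟨by simp [chiFour_apply], fun _ => chiFour_mul _ _⟩

theorem chiFour_pow (n i : ℕ) : chiFour (n ^ i) = chiFour n ^ i := by
  induction i with
  | zero => simp [chiFour_apply]
  | succ i ih => rw [pow_succ, chiFour_mul, ih, pow_succ]

/-- `∑_{e ∣ n} χ₄ e`. -/
def chiSum : ArithmeticFunction ℤ := ↑ζ * chiFour

theorem chiSum_prime_pow {p : ℕ} (hp : p.Prime) (a : ℕ) :
    chiSum (p ^ a) = ∑ i ∈ range (a + 1), chiFour p ^ i := by
  rw [chiSum, ArithmeticFunction.coe_zeta_mul_apply, Nat.sum_divisors_prime_pow hp]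
  exact sum_congr rfl fun i _ => chiFour_pow p i

theorem identity_prime_pow {p : ℕ} (hp : p.Prime) (a : ℕ) :
    (rootCount (p ^ a) : ℤ) = (sqMoebius * chiSum) (p ^ a) := by
  rw [ArithmeticFunction.mul_apply, Nat.sum_divisorsAntidiagonal
    (fun x y => sqMoebius x * chiSum y), Nat.sum_divisors_prime_pow hp]
  have hterm : ∀ i ∈ range (a + 1), sqMoebius (p ^ i) * chiSum (p ^ a / p ^ i) =
      (if i = 0 then ∑ j ∈ range (a + 1), chiFour p ^ j else 0) -
        (if i = 2 then ∑ j ∈ range (a - 1), chiFour p ^ j else 0) := fun i hi => by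
    rw [mem_range] at hi
    rw [Nat.pow_div (by omega) hp.pos, chiSum_prime_pow hp, sqMoebius_prime_pow hp]
    by_cases h0 : i = 0
    · subst h0
      simp
    by_cases h2 : i = 2
    · subst h2
      rw [show a - 2 + 1 = a - 1 by omega]
      simp
    simp [h0, h2]
  rw [sum_congr rfl hterm, sum_sub_distrib, sum_ite_eq' (range (a + 1)),
    sum_ite_eq' (range (a + 1)),
    if_pos (mem_range.2 a.succ_pos)]
  rcases (show a = 0 ∨ a = 1 ∨ 2 ≤ a by omega) with rfl | rfl | ha
  · simp [rootCount_one]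
  · rw [if_neg (by simp), sub_zero, pow_one, sum_range_succ, sum_range_one, pow_zero, pow_one]
    rcases hp.eq_two_or_odd with rfl | ho
    · rw [rootCount_two, chiFour_apply, ZMod.χ₄_nat_eq_if_mod_four]
      norm_num
    rcases (show p % 4 = 1 ∨ p % 4 = 3 by omega) with h | h
    · rw [← pow_one p, rootCount_eq_two hp h le_rfl, pow_one, chiFour_apply,
        ZMod.χ₄_nat_one_mod_four h]
      norm_num
    · rw [← pow_one p, rootCount_eq_zero hp h le_rfl, pow_one, chiFour_apply,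
        ZMod.χ₄_nat_three_mod_four h]
      norm_num
  · obtain ⟨b, rfl⟩ : ∃ b, a = b + 2 := ⟨a - 2, by omega⟩
    rw [if_pos (mem_range.2 (by omega)), show b + 2 - 1 = b + 1 by omega, sum_range_succ,
      sum_range_succ, add_sub_assoc]
    rcases hp.eq_two_or_odd with rfl | ho
    · rw [rootCount_two_pow ha, chiFour_apply, ZMod.χ₄_nat_eq_if_mod_four]
      simp
    rcases (show p % 4 = 1 ∨ p % 4 = 3 by omega) with h | h
    · rw [rootCount_eq_two hp h (by omega), chiFour_apply, ZMod.χ₄_nat_one_mod_four h]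
      simp only [one_pow]
      ring
    · rw [rootCount_eq_zero hp h (by omega), chiFour_apply, ZMod.χ₄_nat_three_mod_four h]
      push_cast
      ring

/-- **The identity.** -/
theorem rootCount_eq : (rootCount : ArithmeticFunction ℤ) = sqMoebius * chiSum := by
  rw [chiSum, (isMultiplicative_rootCount.natCast).eq_iff_eq_on_prime_powers _ _
    (isMultiplicative_sqMoebius.mul
      (ArithmeticFunction.isMultiplicative_zeta.natCast.mul isMultiplicative_chiFour))]
  intro p a hp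
  exact identity_prime_pow hp a

end FA.QuadDivisor

end
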