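import Fermat.Agent.QuadraticDivisor.Roots
import Fermat.Agent.MinkowskiHlawka.Count
import Mathlib.NumberTheory.Harmonic.Bounds
import Mathlib.NumberTheory.LSeries.HurwitzZetaValues
import Mathlib.Analysis.Real.Pi.Leibniz

/-!
# The sums of `ρ d` and `ρ d / d`

`∑_{a ≤ m} χ₄ a / a = π / 4 + O (1 / m)` gives
`∑_{n ≤ M} (∑_{e ∣ n} χ₄ e) / n = π / 4 log M + O (1)`,
and with the weights `μ k` at `k ^ 2`, of total `6 / π ^ 2`, `∑_{d ≤ N} ρ d / d = 3 / (2 π) log N +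
O (1)` and `∑_{d ≤ N} ρ d = O (N)`.
-/

set_option autoImplicit false

noncomputable section

open Finset Filter
open scoped ArithmeticFunction.zeta ArithmeticFunction.Moebius Topology Real

namespace FA.QuadDivisor

local notation "χR" a => ((chiFour a : ℤ) : ℝ)

/-! ### Partial sums against a decreasing weight -/

/-- The partial sums of `χ₄` are `0` or `1`. -/
theorem sum_chiFour_eq (n : ℕ) :
    ∑ a ∈ range n, chiFour a = if n % 4 = 2 ∨ n % 4 = 3 then 1 else 0 := by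
  induction n with
  | zero => simp
  | succ n ih =>
    rw [sum_range_succ, ih, chiFour_apply, ZMod.χ₄_nat_eq_if_mod_four]
    split_ifs <;> omega

theorem abs_sum_Ico_chiFour_le {A B : ℕ} (h : A ≤ B) : |∑ a ∈ Ico A B, (χR a)| ≤ 1 := by
  rw [← Int.cast_sum, sum_Ico_eq_sub _ h, sum_chiFour_eq, sum_chiFour_eq]
  split_ifs <;> norm_num

/-- **Abel**: a decreasing nonnegative weight. -/
theorem abs_sum_chiFour_mul_le {g : ℕ → ℝ} {A : ℕ} (hg : ∀ a, A ≤ a → 0 ≤ g a ∧ g (a + 1) ≤ g a)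
    {B : ℕ} (h : A ≤ B) : |∑ a ∈ Ico A B, (χR a) * g a| ≤ g A := by
  have key : |(∑ a ∈ Ico A B, (χR a) * g a) - (∑ a ∈ Ico A B, (χR a)) * g B| ≤ g A - g B := by
    induction B, h using Nat.le_induction with
    | base => simp
    | succ B hB ih =>
      rw [sum_Ico_succ_top hB, sum_Ico_succ_top hB]
      have e : (∑ a ∈ Ico A B, (χR a) * g a) + (χR B) * g B -
          ((∑ a ∈ Ico A B, (χR a)) + χR B) * g (B + 1) =
          ((∑ a ∈ Ico A B, (χR a) * g a) - (∑ a ∈ Ico A B, (χR a)) * g B) +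
          ((∑ a ∈ Ico A B, (χR a)) + χR B) * (g B - g (B + 1)) := by ring
      have h1 : |(∑ a ∈ Ico A B, (χR a)) + χR B| ≤ 1 := by
        have := abs_sum_Ico_chiFour_le (show A ≤ B + 1 by omega)
        rwa [sum_Ico_succ_top hB] at this
      have h2 := mul_le_mul_of_nonneg_right h1 (sub_nonneg.2 (hg B hB).2)
      rw [e]
      refine (abs_add_le _ _).trans ?_
      rw [abs_mul, abs_of_nonneg (sub_nonneg.2 (hg B hB).2)]
      linarith
  have h1 := mul_le_mul_of_nonneg_right (abs_sum_Ico_chiFour_le h) (hg B h).1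
  have h2 := abs_sub_abs_le_abs_sub (∑ a ∈ Ico A B, (χR a) * g a)
    ((∑ a ∈ Ico A B, (χR a)) * g B)
  rw [abs_mul, abs_of_nonneg (hg B h).1] at h2
  linarith

theorem range_two_mul_eq (k : ℕ) :
    ∑ a ∈ range (2 * k), (χR a) * (1 / (a : ℝ)) =
      ∑ i ∈ range k, (-1 : ℝ) ^ i / (2 * i + 1) := by
  induction k with
  | zero => simp
  | succ k ih =>
    rw [show 2 * (k + 1) = 2 * k + 1 + 1 by ring, sum_range_succ, sum_range_succ, ih,
      sum_range_succ _ k, chiFour_apply, chiFour_apply,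
      ZMod.χ₄_eq_neg_one_pow (show (2 * k + 1) % 2 = 1 by omega), ZMod.χ₄_nat_eq_if_mod_four,
      if_pos (show 2 * k % 2 = 0 by omega), show (2 * k + 1) / 2 = k by omega]
    push_cast
    ring

/-- **Leibniz's series with its remainder.** -/
theorem abs_sum_chiFour_div_sub_le (m : ℕ) :
    |(∑ a ∈ Ioc 0 m, (χR a) / a) - π / 4| ≤ 1 / (m + 1 : ℕ) := by
  have hlim : Tendsto (fun k : ℕ => ∑ a ∈ range (2 * k), (χR a) * (1 / (a : ℝ))) atTop
      (𝓝 (π / 4)) := Real.tendsto_sum_pi_div_four.congr fun k => (range_two_mul_eq k).symm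
  have hm : ∑ a ∈ Ioc 0 m, (χR a) / a = ∑ a ∈ range (m + 1), (χR a) * (1 / (a : ℝ)) := by
    rw [range_eq_Ico, sum_eq_sum_Ico_succ_bot (Nat.succ_pos m), Nat.cast_zero, div_zero, mul_zero,
      zero_add]
    exact sum_congr (by ext; simp; omega) fun a _ => (mul_one_div _ _).symm
  rw [hm, abs_sub_comm]
  refine le_of_tendsto ((hlim.sub_const _).abs) ?_
  filter_upwards [eventually_ge_atTop (m + 1)] with k hk
  rw [← sum_Ico_eq_sub _ (show m + 1 ≤ 2 * k by omega)]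
  refine abs_sum_chiFour_mul_le (fun a ha => ⟨by positivity, ?_⟩) (by omega)
  have ha0 : (0 : ℝ) < a := Nat.cast_pos.2 (by omega)
  exact one_div_le_one_div_of_le ha0 (by push_cast; linarith)

/-! ### The sums of `∑_{e ∣ n} χ₄ e` -/

/-- A weight times an arithmetic function. -/
def weighted (w : ℕ → ℝ) (f : ArithmeticFunction ℤ) : ArithmeticFunction ℝ :=
  ⟨fun n => if n = 0 then 0 else w n * (f n : ℝ), if_pos rfl⟩

theorem weighted_apply (w : ℕ → ℝ) (f : ArithmeticFunction ℤ) {n : ℕ} (hn : n ≠ 0) :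
    weighted w f n = w n * (f n : ℝ) := if_neg hn

/-- **A completely multiplicative weight splits a convolution.** -/
theorem sum_weighted_mul {w : ℕ → ℝ} (hw : ∀ a b, w (a * b) = w a * w b)
    (f g : ArithmeticFunction ℤ) (N : ℕ) :
    ∑ n ∈ Ioc 0 N, w n * ((f * g) n : ℝ) =
      ∑ n ∈ Ioc 0 N, w n * (f n : ℝ) * ∑ m ∈ Ioc 0 (N / n), w m * (g m : ℝ) := by
  have h : ∀ n ∈ Ioc 0 N, w n * ((f * g) n : ℝ) = (weighted w f * weighted w g) n := fun n _ => by
    rw [ArithmeticFunction.mul_apply, ArithmeticFunction.mul_apply, Int.cast_sum, mul_sum]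
    refine sum_congr rfl fun x hx => ?_
    obtain ⟨hxn, hn⟩ := Nat.mem_divisorsAntidiagonal.1 hx
    rw [weighted_apply _ _ (fun h => hn (by rw [← hxn, h, zero_mul])),
      weighted_apply _ _ (fun h => hn (by rw [← hxn, h, mul_zero])), ← hxn, hw]
    push_cast
    ring
  rw [sum_congr rfl h, ArithmeticFunction.sum_Ioc_mul_eq_sum_sum]
  refine sum_congr rfl fun n hn => ?_
  rw [weighted_apply _ _ (by have := (mem_Ioc.1 hn).1; omega)]
  exact congrArg _ (sum_congr rfl fun m hm =>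
    weighted_apply _ _ (by have := (mem_Ioc.1 hm).1; omega))

theorem inv_mul_weight (a b : ℕ) : (1 : ℝ) / ((a * b : ℕ) : ℝ) = 1 / (a : ℝ) * (1 / (b : ℝ)) := by
  push_cast
  rw [div_mul_div_comm, one_mul]

theorem zetaInt_apply {n : ℕ} (hn : n ≠ 0) : ((ζ : ArithmeticFunction ℤ)) n = 1 := by
  rw [ArithmeticFunction.natCoe_apply, ArithmeticFunction.zeta_apply_ne hn, Nat.cast_one]

theorem sum_inv_eq_harmonic (M : ℕ) : ∑ b ∈ Ioc 0 M, 1 / (b : ℝ) = harmonic M := by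
  rw [harmonic_eq_sum_Icc, Rat.cast_sum]
  exact sum_congr (by ext; simp [Nat.one_le_iff_ne_zero, Nat.pos_iff_ne_zero]) fun b _ => by simp

/-- `∑_{n ≤ M} (∑_{e ∣ n} χ₄ e) / n = π / 4 log M + O (1)`. -/
theorem abs_sum_chiSum_div_le (M : ℕ) :
    |(∑ n ∈ Ioc 0 M, 1 / (n : ℝ) * (chiSum n : ℝ)) - π / 4 * Real.log M| ≤ 3 := by
  rcases Nat.eq_zero_or_pos M with rfl | hM
  · simp
  rw [chiSum, sum_weighted_mul inv_mul_weight]
  have h1 : |(∑ b ∈ Ioc 0 M, 1 / (b : ℝ) * (((ζ : ArithmeticFunction ℤ) b : ℤ) : ℝ) *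
      ∑ a ∈ Ioc 0 (M / b), 1 / (a : ℝ) * (chiFour a : ℝ)) - π / 4 * (harmonic M : ℝ)| ≤ 1 := by
    rw [← sum_inv_eq_harmonic, mul_sum, ← sum_sub_distrib]
    refine (abs_sum_le_sum_abs _ _).trans ((sum_le_sum (g := fun _ => 1 / (M : ℝ))
      fun b hb => ?_).trans ?_)
    · rw [mem_Ioc] at hb
      have hb0 : (0 : ℝ) < b := Nat.cast_pos.2 hb.1
      rw [zetaInt_apply (by omega), Int.cast_one, mul_one, mul_comm (π / 4), ← mul_sub, abs_mul,
        abs_of_pos (by positivity : (0 : ℝ) < 1 / b),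
        sum_congr rfl fun (a : ℕ) _ => show 1 / (a : ℝ) * (chiFour a : ℝ) = (χR a) / a by ring]
      refine (mul_le_mul_of_nonneg_left (abs_sum_chiFour_div_sub_le (M / b)) (by positivity)).trans
        ?_
      rw [div_mul_div_comm, one_mul]
      refine one_div_le_one_div_of_le (Nat.cast_pos.2 hM) ?_
      have := Nat.lt_div_mul_add (a := M) hb.1
      rw [← Nat.cast_mul, Nat.cast_le, mul_add, mul_one, mul_comm]
      omega
    · rw [sum_const, Nat.card_Ioc, Nat.sub_zero, nsmul_eq_mul,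
        mul_one_div_cancel (Nat.cast_ne_zero.2 hM.ne')]
  have h2 : |π / 4 * (harmonic M : ℝ) - π / 4 * Real.log M| ≤ 2 := by
    have hlow := log_add_one_le_harmonic M
    have hup := harmonic_le_one_add_log M
    have hlog : Real.log M ≤ Real.log ((M + 1 : ℕ) : ℝ) :=
      Real.log_le_log (Nat.cast_pos.2 hM) (Nat.cast_le.2 (by omega))
    rw [← mul_sub, abs_mul, abs_of_pos (by positivity), abs_of_nonneg (by linarith)]
    nlinarith [Real.pi_le_four, Real.pi_pos]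
  exact (abs_sub_le _ (π / 4 * (harmonic M : ℝ)) _).trans (by linarith)

/-- `|∑_{n ≤ M} ∑_{e ∣ n} χ₄ e| ≤ M`. -/
theorem abs_sum_chiSum_le (M : ℕ) : |∑ n ∈ Ioc 0 M, (1 : ℝ) * (chiSum n : ℝ)| ≤ M := by
  rw [chiSum, sum_weighted_mul (w := fun _ => (1 : ℝ)) fun _ _ => (one_mul 1).symm]
  refine (abs_sum_le_sum_abs _ _).trans ((sum_le_sum (g := fun _ => (1 : ℝ)) fun b hb => ?_).trans
    (by simp))
  rw [mem_Ioc] at hb
  rw [zetaInt_apply (by omega), Int.cast_one, one_mul, one_mul]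
  rw [sum_congr rfl fun (a : ℕ) _ => one_mul ((chiFour a : ℝ)),
    show Ioc 0 (M / b) = Ico 1 (M / b + 1) by ext; simp only [mem_Ioc, mem_Ico]; omega]
  exact abs_sum_Ico_chiFour_le (Nat.le_add_left 1 _)

/-! ### The sums of `ρ` -/

theorem sum_sqMoebius (φ : ℕ → ℝ) (N : ℕ) :
    ∑ n ∈ Ioc 0 N, (sqMoebius n : ℝ) * φ n =
      ∑ k ∈ Ioc 0 (Nat.sqrt N), (μ k : ℝ) * φ (k * k) := by
  rw [← sum_filter_of_ne (p := IsSquare) fun n _ hn => by
      by_contra h
      exact hn (by rw [sqMoebius_eq_zero h, Int.cast_zero, zero_mul]),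
    sum_congr (s₂ := (Ioc 0 (Nat.sqrt N)).image fun k => k * k) ?_ fun _ _ => rfl,
    sum_image fun a _ b _ e => Nat.mul_self_inj.1 e]
  · exact sum_congr rfl fun k _ => by rw [sqMoebius_sq]
  · ext n
    rw [mem_filter, mem_image, mem_Ioc]
    constructor
    · rintro ⟨⟨h1, h2⟩, c, rfl⟩
      exact ⟨c, mem_Ioc.2 ⟨pos_of_mul_pos_right h1 (Nat.zero_le c), Nat.le_sqrt.2 h2⟩, rfl⟩
    · rintro ⟨c, hc, rfl⟩
      rw [mem_Ioc] at hc
      exact ⟨⟨Nat.mul_pos hc.1 hc.1, Nat.le_sqrt.1 hc.2⟩, c, rfl⟩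

theorem cast_rootCount (n : ℕ) : (rootCount n : ℝ) = ((sqMoebius * chiSum) n : ℝ) := by
  rw [← rootCount_eq, ArithmeticFunction.natCoe_apply, Int.cast_natCast]

theorem sum_inv_sq_le (M : ℕ) : ∑ k ∈ Ioc 0 M, 1 / (k : ℝ) ^ 2 ≤ 2 := by
  rcases Nat.eq_zero_or_pos M with rfl | hM
  · simp
  have h := sum_Ioc_inv_sq_le_sub (α := ℝ) one_ne_zero hM
  have h0 : (0 : ℝ) ≤ (M : ℝ)⁻¹ := by positivity
  rw [Nat.cast_one, inv_one] at h
  rw [← sum_Ioc_consecutive _ zero_le_one hM, show Ioc 0 1 = {1} from rfl, sum_singleton]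
  simp only [one_div]
  norm_num
  linarith

theorem summable_log_div_sq : Summable fun k : ℕ => Real.log k / (k : ℝ) ^ 2 := by
  refine Summable.of_nonneg_of_le (fun k => div_nonneg (Real.log_natCast_nonneg k)
    (by positivity)) (fun k => ?_)
    ((Real.summable_one_div_nat_rpow.2 (show (1 : ℝ) < 3 / 2 by norm_num)).mul_left 2)
  rcases Nat.eq_zero_or_pos k with rfl | hk
  · simp
  have h0 : (0 : ℝ) < k := Nat.cast_pos.2 hk
  have h1 := Real.log_le_rpow_div h0.le (show (0 : ℝ) < 1 / 2 by norm_num)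
  rw [div_le_iff₀ (pow_pos h0 2)]
  refine h1.trans (le_of_eq ?_)
  rw [← Real.rpow_natCast (k : ℝ) 2, mul_assoc, div_mul_eq_mul_div, one_mul, ← Real.rpow_sub h0]
  norm_num
  ring

theorem abs_moebius_real_le (k : ℕ) : |(μ k : ℝ)| ≤ 1 := by
  exact_mod_cast ArithmeticFunction.abs_moebius_le_one

theorem summable_moebius_sq : Summable fun k : ℕ => (μ k : ℝ) / (k : ℝ) ^ 2 := by
  refine Summable.of_norm_bounded (Real.summable_one_div_nat_pow.2 one_lt_two) fun k => ?_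
  rw [Real.norm_eq_abs, abs_div, abs_of_nonneg (by positivity : (0 : ℝ) ≤ (k : ℝ) ^ 2)]
  exact div_le_div_of_nonneg_right (abs_moebius_real_le k) (by positivity)

/-- `∑_{k ≤ m} μ k / k ^ 2 = 6 / π ^ 2 + O (1 / m)`. -/
theorem abs_sum_moebius_sq_sub_le {m : ℕ} (hm : 1 ≤ m) :
    |(∑ k ∈ Ioc 0 m, (μ k : ℝ) / (k : ℝ) ^ 2) - 6 / π ^ 2| ≤ 1 / (m : ℝ) := by
  have htotal : ∑' k : ℕ, (μ k : ℝ) / (k : ℝ) ^ 2 = 6 / π ^ 2 := by
    rw [FA.MinkowskiHlawka.tsum_moebius_div_pow one_lt_two, FA.MinkowskiHlawka.zetaNat,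
      hasSum_zeta_two.tsum_eq, inv_div]
  have hlim := summable_moebius_sq.hasSum.tendsto_sum_nat
  rw [htotal] at hlim
  have hm' : ∑ k ∈ Ioc 0 m, (μ k : ℝ) / (k : ℝ) ^ 2 =
      ∑ k ∈ range (m + 1), (μ k : ℝ) / (k : ℝ) ^ 2 := by
    rw [range_eq_Ico, sum_eq_sum_Ico_succ_bot (Nat.succ_pos m), ArithmeticFunction.map_zero,
      Int.cast_zero, zero_div, zero_add]
    exact sum_congr (by ext; simp; omega) fun _ _ => rfl
  rw [hm', abs_sub_comm]
  refine le_of_tendsto ((hlim.sub_const _).abs) ?_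
  filter_upwards [eventually_ge_atTop (m + 1)] with B hB
  rw [← sum_Ico_eq_sub _ hB]
  refine (abs_sum_le_sum_abs _ _).trans ((sum_le_sum (g := fun k : ℕ => ((k : ℝ) ^ 2)⁻¹)
    fun k _ => ?_).trans ?_)
  · rw [abs_div, abs_of_nonneg (by positivity : (0 : ℝ) ≤ (k : ℝ) ^ 2), inv_eq_one_div]
    exact div_le_div_of_nonneg_right (abs_moebius_real_le k) (by positivity)
  · obtain ⟨B', rfl⟩ : ∃ B', B = B' + 1 := ⟨B - 1, by omega⟩
    rw [show Ico (m + 1) (B' + 1) = Ioc m B' by ext; simp only [mem_Ico, mem_Ioc]; omega, one_div]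
    refine (sum_Ioc_inv_sq_le_sub (by omega) (by omega)).trans (sub_le_self _ ?_)
    positivity

/-- **`∑_{d ≤ N} ρ d ≤ 2 N`.** -/
theorem sum_rootCount_le (N : ℕ) : ∑ n ∈ Ioc 0 N, (rootCount n : ℝ) ≤ 2 * N := by
  have e : ∑ n ∈ Ioc 0 N, (rootCount n : ℝ) = ∑ k ∈ Ioc 0 (Nat.sqrt N),
      (μ k : ℝ) * ∑ m ∈ Ioc 0 (N / (k * k)), (1 : ℝ) * (chiSum m : ℝ) := by
    rw [sum_congr rfl fun n _ => (cast_rootCount n).trans (one_mul _).symm,
      sum_weighted_mul (w := fun _ => (1 : ℝ)) fun _ _ => (one_mul 1).symm, ← sum_sqMoebius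
        (fun n => ∑ m ∈ Ioc 0 (N / n), (1 : ℝ) * (chiSum m : ℝ))]
    simp only [one_mul]
  rw [e]
  refine (le_abs_self _).trans ((abs_sum_le_sum_abs _ _).trans
    ((sum_le_sum (g := fun k : ℕ => (N : ℝ) * (1 / (k : ℝ) ^ 2)) fun k hk => ?_).trans ?_))
  · rw [abs_mul]
    refine (mul_le_mul (abs_moebius_real_le k) (abs_sum_chiSum_le _) (abs_nonneg _)
      zero_le_one).trans ?_
    rw [one_mul, sq, mul_one_div, ← Nat.cast_mul]
    exact Nat.cast_div_le
  · rw [← mul_sum, mul_comm (2 : ℝ)]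
    exact mul_le_mul_of_nonneg_left (sum_inv_sq_le _) (Nat.cast_nonneg N)

/-- **`∑_{d ≤ N} ρ d / d = 3 / (2 π) log N + O (1)`.** -/
theorem exists_sum_rootCount_div : ∃ C : ℝ, ∀ N : ℕ, 1 ≤ N →
    |(∑ n ∈ Ioc 0 N, (rootCount n : ℝ) / n) - 3 / (2 * π) * Real.log N| ≤ C := by
  obtain ⟨S, hS⟩ : ∃ S, S = ∑' k : ℕ, Real.log k / (k : ℝ) ^ 2 := ⟨_, rfl⟩
  refine ⟨4 * 2 + 2 * S + 3, fun N hN => ?_⟩
  obtain ⟨m, hm⟩ : ∃ m, m = Nat.sqrt N := ⟨_, rfl⟩
  have e : ∑ n ∈ Ioc 0 N, (rootCount n : ℝ) / n = ∑ k ∈ Ioc 0 m, (μ k : ℝ) / (k : ℝ) ^ 2 *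
      ∑ i ∈ Ioc 0 (N / (k * k)), 1 / (i : ℝ) * (chiSum i : ℝ) := by
    rw [sum_congr rfl fun (n : ℕ) _ => show (rootCount n : ℝ) / n =
        1 / (n : ℝ) * ((sqMoebius * chiSum) n : ℝ) by rw [← cast_rootCount]; ring,
      sum_weighted_mul inv_mul_weight,
      sum_congr rfl fun (n : ℕ) _ => show
        1 / (n : ℝ) * (sqMoebius n : ℝ) * (∑ i ∈ Ioc 0 (N / n), 1 / (i : ℝ) * (chiSum i : ℝ)) =
          (sqMoebius n : ℝ) * (1 / (n : ℝ) *
            ∑ i ∈ Ioc 0 (N / n), 1 / (i : ℝ) * (chiSum i : ℝ)) by ring, sum_sqMoebius, ← hm]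
    refine sum_congr rfl fun k _ => ?_
    push_cast
    ring
  have hterm : ∀ k ∈ Ioc 0 m, |(μ k : ℝ) / (k : ℝ) ^ 2 *
      (∑ i ∈ Ioc 0 (N / (k * k)), 1 / (i : ℝ) * (chiSum i : ℝ)) -
        π / 4 * Real.log N * ((μ k : ℝ) / (k : ℝ) ^ 2)| ≤
      4 * (1 / (k : ℝ) ^ 2) + 2 * (Real.log k / (k : ℝ) ^ 2) := fun k hk => by
    rw [mem_Ioc, hm] at hk
    obtain ⟨q, hq⟩ : ∃ q, q = N / (k * k) := ⟨_, rfl⟩
    have hkk : k * k ≤ N := Nat.le_sqrt.1 hk.2
    have hk0 : (0 : ℝ) < k := Nat.cast_pos.2 hk.1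
    have hq1 : 1 ≤ q := hq ▸ Nat.div_pos hkk (Nat.mul_pos hk.1 hk.1)
    have hqR : (1 : ℝ) ≤ q := Nat.one_le_cast.2 hq1
    have hup : (q : ℝ) * (k * k) ≤ N := by
      rw [hq]
      exact_mod_cast Nat.div_mul_le_self N (k * k)
    have hlow : (N : ℝ) ≤ 2 * q * (k * k) := by
      have := Nat.lt_div_mul_add (a := N) (Nat.mul_pos hk.1 hk.1)
      rw [← hq] at this
      have h2 : k * k ≤ q * (k * k) := Nat.le_mul_of_pos_left _ hq1
      exact_mod_cast (show N ≤ 2 * q * (k * k) by rw [mul_assoc]; omega)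
    have hl1 : Real.log (q * (k * k)) ≤ Real.log N := Real.log_le_log (by positivity) hup
    have hl2 : Real.log N ≤ Real.log (2 * q * (k * k)) :=
      Real.log_le_log (Nat.cast_pos.2 hN) hlow
    rw [Real.log_mul (by positivity) (by positivity), Real.log_mul hk0.ne' hk0.ne'] at hl1
    rw [Real.log_mul (by positivity) (by positivity), Real.log_mul two_ne_zero (by positivity),
      Real.log_mul hk0.ne' hk0.ne'] at hl2
    have hlk : 0 ≤ Real.log k := Real.log_natCast_nonneg k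
    have hd : |π / 4 * Real.log q - π / 4 * Real.log N| ≤ 1 + 2 * Real.log k := by
      rw [← mul_sub, abs_mul, abs_of_pos (by positivity : 0 < π / 4)]
      refine (mul_le_of_le_one_left (abs_nonneg _) (by linarith [Real.pi_le_four])).trans ?_
      rw [abs_le]
      constructor <;> linarith [Real.log_le_sub_one_of_pos (two_pos : (0 : ℝ) < 2)]
    rw [← hq, mul_comm (π / 4 * Real.log N), ← mul_sub, abs_mul, abs_div,
      abs_of_pos (pow_pos hk0 2)]
    refine (mul_le_mul (div_le_div_of_nonneg_right (abs_moebius_real_le k) (by positivity))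
      ((abs_sub_le _ (π / 4 * Real.log q) _).trans (add_le_add (abs_sum_chiSum_div_le q) hd))
      (abs_nonneg _) (by positivity)).trans (le_of_eq ?_)
    ring
  have h1 : |(∑ n ∈ Ioc 0 N, (rootCount n : ℝ) / n) -
      π / 4 * Real.log N * ∑ k ∈ Ioc 0 m, (μ k : ℝ) / (k : ℝ) ^ 2| ≤ 4 * 2 + 2 * S := by
    rw [e, mul_sum, ← sum_sub_distrib]
    refine (abs_sum_le_sum_abs _ _).trans ((sum_le_sum hterm).trans ?_)
    rw [sum_add_distrib, ← mul_sum, ← mul_sum, hS]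
    refine add_le_add (mul_le_mul_of_nonneg_left (sum_inv_sq_le m) (by norm_num))
      (mul_le_mul_of_nonneg_left (summable_log_div_sq.sum_le_tsum _ fun k _ => ?_) (by norm_num))
    exact div_nonneg (Real.log_natCast_nonneg k) (by positivity)
  have hm1 : 1 ≤ m := hm ▸ Nat.le_sqrt.2 hN
  have h2 : |π / 4 * Real.log N * (∑ k ∈ Ioc 0 m, (μ k : ℝ) / (k : ℝ) ^ 2) -
      3 / (2 * π) * Real.log N| ≤ 3 := by
    have hm0 : (0 : ℝ) < m := Nat.cast_pos.2 hm1
    have hl : 0 ≤ Real.log N := Real.log_natCast_nonneg N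
    have hlm : Real.log N ≤ 3 * m := by
      have hN2 : (N : ℝ) ≤ ((m : ℝ) + 1) ^ 2 := by
        rw [hm]
        exact_mod_cast (Nat.lt_succ_sqrt' N).le
      have h := Real.log_le_log (Nat.cast_pos.2 hN) hN2
      rw [Real.log_pow, Nat.cast_ofNat] at h
      linarith [Real.log_le_sub_one_of_pos (show (0 : ℝ) < m + 1 by linarith)]
    have e2 : 3 / (2 * π) * Real.log N = π / 4 * Real.log N * (6 / π ^ 2) := by
      field_simp
      ring
    rw [e2, ← mul_sub, abs_mul, abs_of_nonneg (show 0 ≤ π / 4 * Real.log N by positivity)]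
    refine (mul_le_mul_of_nonneg_left (abs_sum_moebius_sq_sub_le hm1) (by positivity)).trans ?_
    rw [mul_one_div, div_le_iff₀ hm0]
    nlinarith [Real.pi_le_four]
  exact (abs_sub_le _ _ _).trans (add_le_add h1 h2)

end FA.QuadDivisor

end
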